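import Fermat.Agent.Eigenform.Lifting
import Fermat.Agent.Eichler.Main

/-!
A normalised eigenform is an eigenvector for the Hecke algebra, with integral eigenvalues.
-/

set_option autoImplicit false

namespace Fermat.Agent.Eigenform

open CuspForm ModularFormClass

variable {N : ℕ} [NeZero N]

/-- Eigen-equations of the coefficients of a normalised eigenform. -/
theorem qCoeff_mul_prime {f : CuspForm (CongruenceSubgroup.Gamma0 N) 2}
    (hf : f.IsNormalizedEigenform) {ℓ : ℕ} (hℓ : ℓ.Prime) (n : ℕ) :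
    qCoeff f (ℓ * n) + (if ℓ ∣ N then (0 : ℂ) else (ℓ : ℂ)) *
        (if ℓ ∣ n then qCoeff f (n / ℓ) else 0) = qCoeff f ℓ * qCoeff f n := by
  rcases Nat.eq_zero_or_pos n with rfl | hn
  · simp [qCoeff_cuspForm_zero]
  obtain ⟨r, m, hm, rfl⟩ := Nat.exists_eq_pow_mul_and_not_dvd hn.ne' ℓ hℓ.ne_one
  have hcop : ∀ s : ℕ, (ℓ ^ s).Coprime m := fun s =>
    Nat.Coprime.pow_left s ((Nat.Prime.coprime_iff_not_dvd hℓ).mpr hm)
  have h1 : qCoeff f (ℓ * (ℓ ^ r * m)) = qCoeff f (ℓ ^ (r + 1)) * qCoeff f m := by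
    rw [← mul_assoc, ← pow_succ', hf.qCoeff_mul_of_coprime _ _ (hcop _)]
  rw [h1, hf.qCoeff_mul_of_coprime _ _ (hcop r)]
  cases r with
  | zero =>
    rw [pow_zero, one_mul, if_neg hm, mul_zero, add_zero, zero_add, pow_one, hf.qCoeff_one,
      one_mul]
  | succ r =>
    have h2 : ℓ ∣ ℓ ^ (r + 1) * m := (dvd_pow_self ℓ r.succ_ne_zero).mul_right m
    have h3 : ℓ ^ (r + 1) * m / ℓ = ℓ ^ r * m := by
      rw [pow_succ', mul_assoc, Nat.mul_div_cancel_left _ hℓ.pos]
    rw [if_pos h2, h3, hf.qCoeff_mul_of_coprime _ _ (hcop r)]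
    by_cases hℓN : ℓ ∣ N
    · rw [if_pos hℓN, hf.qCoeff_prime_pow_of_dvd ℓ r hℓ hℓN]
      ring
    · rw [if_neg hℓN, hf.qCoeff_prime_pow_of_not_dvd ℓ r hℓ hℓN]
      ring

/-- A normalised eigenform is a `T_ℓ` eigenvector. -/
theorem heckeTLin_eigen {f : CuspForm (CongruenceSubgroup.Gamma0 N) 2}
    (hf : f.IsNormalizedEigenform) {ℓ : ℕ} (hℓ : ℓ.Prime) (hℓN : ¬ ℓ ∣ N) :
    heckeTLin 2 hℓ hℓN f = qCoeff f ℓ • f := by
  apply qCoeff_ext
  intro n
  rw [qCoeff_heckeTLin, qCoeff_smul, ModularForm.coeffHeckeT_apply, ← qCoeff_mul_prime hf hℓ n,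
    if_neg hℓN, mul_comm n ℓ]
  congr 1
  split_ifs
  · norm_num
  · rw [mul_zero]

/-- A normalised eigenform is a `U_q` eigenvector. -/
theorem heckeULin_eigen {f : CuspForm (CongruenceSubgroup.Gamma0 N) 2}
    (hf : f.IsNormalizedEigenform) {q : ℕ} (hq : q.Prime) (hqN : q ∣ N) :
    heckeULin 2 hqN f = qCoeff f q • f := by
  apply qCoeff_ext
  intro n
  rw [qCoeff_heckeULin, qCoeff_smul, ModularForm.coeffHeckeU_apply, ← qCoeff_mul_prime hf hq n,
    if_pos hqN, zero_mul, add_zero, mul_comm n q]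

theorem ne_zero_of_isNormalizedEigenform {f : CuspForm (CongruenceSubgroup.Gamma0 N) 2}
    (hf : f.IsNormalizedEigenform) : f ≠ 0 := by
  rintro rfl
  have h1 := hf.qCoeff_one
  have h2 : qCoeff ⇑(0 : CuspForm (CongruenceSubgroup.Gamma0 N) 2) 1 = 0 := by
    rw [← qCoeffLin_apply, map_zero]
  rw [h2] at h1
  exact zero_ne_one h1

/-- Every element of the Hecke algebra has a normalised eigenform as eigenvector. -/
theorem exists_eigenvalue {f : CuspForm (CongruenceSubgroup.Gamma0 N) 2}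
    (hf : f.IsNormalizedEigenform) (S : Set ℕ) (t : heckeAlgebra N 2 S) :
    ∃ c : ℂ, (t : Module.End ℂ (CuspForm (CongruenceSubgroup.Gamma0 N) 2)) f = c • f := by
  obtain ⟨t, ht⟩ := t
  induction ht using Algebra.adjoin_induction with
  | mem x hx =>
    rcases hx with ⟨ℓ, hℓ, hℓN, -, rfl⟩ | ⟨q, hqN, hq, -, rfl⟩
    · exact ⟨_, heckeTLin_eigen hf hℓ hℓN⟩
    · exact ⟨_, heckeULin_eigen hf hq hqN⟩
  | algebraMap r => exact ⟨(r : ℂ), by
      simp only [Module.algebraMap_end_apply]; rw [Int.cast_smul_eq_zsmul]⟩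
  | add x y hx hy h1 h2 =>
    obtain ⟨c, hc⟩ := h1
    obtain ⟨d, hd⟩ := h2
    refine ⟨c + d, ?_⟩
    simp only at hc hd ⊢
    rw [LinearMap.add_apply, hc, hd, add_smul]
  | mul x y hx hy h1 h2 =>
    obtain ⟨c, hc⟩ := h1
    obtain ⟨d, hd⟩ := h2
    refine ⟨d * c, ?_⟩
    simp only at hc hd ⊢
    rw [Module.End.mul_apply, hd, map_smul, hc, smul_smul]

/-- The eigenvalue character of a normalised eigenform, with values in algebraic integers. -/
theorem exists_eigenChar {f : CuspForm (CongruenceSubgroup.Gamma0 N) 2}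
    (hf : f.IsNormalizedEigenform) (S : Set ℕ) :
    ∃ χ : heckeAlgebra N 2 S →+* integralClosure ℤ ℂ, ∀ t : heckeAlgebra N 2 S,
      (t : Module.End ℂ (CuspForm (CongruenceSubgroup.Gamma0 N) 2)) f = (χ t : ℂ) • f := by
  classical
  have hf0 := ne_zero_of_isNormalizedEigenform hf
  choose c hc using exists_eigenvalue hf S
  have huniq : ∀ {x y : ℂ}, x • f = y • f → x = y := fun h => smul_left_injective ℂ hf0 h
  let χ : heckeAlgebra N 2 S →+* ℂ :=
    { toFun := c
      map_one' := huniq (by rw [← hc, OneMemClass.coe_one, Module.End.one_apply, one_smul])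
      map_mul' := fun s t => huniq (by
        rw [← hc, MulMemClass.coe_mul, Module.End.mul_apply, hc t, map_smul, hc s, smul_smul,
          mul_comm])
      map_zero' := huniq (by rw [← hc, ZeroMemClass.coe_zero, LinearMap.zero_apply, zero_smul])
      map_add' := fun s t => huniq (by
        rw [← hc, AddMemClass.coe_add, LinearMap.add_apply, hc t, hc s, add_smul]) }
  have hfin : Module.Finite ℤ (heckeAlgebra N 2 S) := Eichler.moduleFinite_heckeAlgebra 2 S
  have hint : ∀ t, χ t ∈ integralClosure ℤ ℂ := by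
    intro t
    have h1 : IsIntegral ℤ t := Algebra.IsIntegral.isIntegral t
    exact h1.map (χ.toIntAlgHom)
  exact ⟨χ.codRestrict (integralClosure ℤ ℂ) hint, hc⟩

theorem isIntegral_qCoeff_prime {f : CuspForm (CongruenceSubgroup.Gamma0 N) 2}
    (hf : f.IsNormalizedEigenform) {ℓ : ℕ} (hℓ : ℓ.Prime) :
    IsIntegral ℤ (qCoeff f ℓ) := by
  obtain ⟨χ, hχ⟩ := exists_eigenChar hf ∅
  have hf0 := ne_zero_of_isNormalizedEigenform hf
  have huniq : ∀ {x y : ℂ}, x • f = y • f → x = y := fun h => smul_left_injective ℂ hf0 h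
  by_cases hℓN : ℓ ∣ N
  · have h1 := hχ (heckeAlgebra.U hℓ hℓN (Set.notMem_empty ℓ))
    rw [heckeAlgebra.coe_U, heckeULin_eigen hf hℓ hℓN] at h1
    rw [huniq h1]
    exact (χ _).2
  · have h1 := hχ (heckeAlgebra.T hℓ hℓN (Set.notMem_empty ℓ))
    rw [heckeAlgebra.coe_T, heckeTLin_eigen hf hℓ hℓN] at h1
    rw [huniq h1]
    exact (χ _).2

end Fermat.Agent.Eigenform
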