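import Mathlib

set_option autoImplicit false

namespace Fermat.Agent.Eigenform

/-- A commutative ring acting faithfully on a finite-dimensional complex vector space: below every
prime of the ring there is the kernel of a character occurring in the space. -/
theorem exists_eigenvector_of_isPrime {V : Type*} [AddCommGroup V] [Module ℂ V]
    [FiniteDimensional ℂ V] {T : Type*} [CommRing T] (φ : T →+* Module.End ℂ V)
    (hφ : Function.Injective φ) (m : Ideal T) [m.IsPrime] :
    ∃ (v : V) (χ : T →+* ℂ), v ≠ 0 ∧ (∀ t, φ t v = χ t • v) ∧ RingHom.ker χ ≤ m := by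
  classical
  let A : Subalgebra ℂ (Module.End ℂ V) := Algebra.adjoin ℂ (Set.range φ)
  have hcomm : ∀ a ∈ Set.range φ, ∀ b ∈ Set.range φ, a * b = b * a := by
    rintro _ ⟨s, rfl⟩ _ ⟨t, rfl⟩
    rw [← map_mul, mul_comm, map_mul]
  have := Algebra.isMulCommutative_adjoin ℂ hcomm
  let _ : CommRing A :=
    { (inferInstance : Ring A) with mul_comm := fun a b => Std.Commutative.comm a b }
  have : Module.Finite ℂ A := inferInstance
  have : IsArtinianRing A := IsArtinianRing.of_finite ℂ A
  have : IsNoetherianRing A := inferInstance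
  have : Module.Finite A V := Module.Finite.of_restrictScalars_finite ℂ A V
  let ι : T →+* A := RingHom.codRestrict φ A (fun t => Algebra.subset_adjoin ⟨t, rfl⟩)
  have hι : Function.Injective ι := fun a b h => hφ (congrArg Subtype.val h)
  obtain ⟨p, hp, hpm⟩ := Ideal.exists_minimalPrimes_le (I := (⊥ : Ideal T)) (J := m) bot_le
  obtain ⟨q, hq, hqp⟩ := Ideal.exists_comap_eq_of_mem_minimalPrimes_of_injective hι p hp
  have hann : Module.annihilator A V = ⊥ := by
    rw [eq_bot_iff]
    intro a ha
    rw [Module.mem_annihilator] at ha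
    rw [Ideal.mem_bot]
    apply Subtype.ext
    exact LinearMap.ext fun v => ha v
  have hqmin : q ∈ (Module.annihilator A V).minimalPrimes := by
    rw [hann]
    exact IsArtinianRing.mem_minimalPrimes bot_le
  obtain ⟨_, v, hv⟩ := (isAssociatedPrime_iff ..).mp
    (Module.associatedPrimes.minimalPrimes_annihilator_subset_associatedPrimes A V hqmin)
  have hv' : ∀ a : A, a ∈ q ↔ (a : Module.End ℂ V) v = 0 := by
    intro a
    rw [hv, Submodule.mem_colon_singleton, Submodule.mem_bot]
    rfl
  have : q.IsMaximal := IsArtinianRing.isMaximal_of_isPrime q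
  have hbij : Function.Bijective (algebraMap ℂ (A ⧸ q)) :=
    IsAlgClosed.algebraMap_bijective_of_isIntegral
  let e : ℂ ≃+* (A ⧸ q) := RingEquiv.ofBijective _ hbij
  let χ : T →+* ℂ := (e.symm : (A ⧸ q) →+* ℂ).comp ((Ideal.Quotient.mk q).comp ι)
  have hχ : ∀ t, ι t - algebraMap ℂ A (χ t) ∈ q := by
    intro t
    rw [← Ideal.Quotient.mk_eq_mk_iff_sub_mem]
    exact (e.apply_symm_apply _).symm
  refine ⟨v, χ, ?_, ?_, ?_⟩
  · rintro rfl
    exact hq.ne_top ((Ideal.eq_top_iff_one q).mpr ((hv' 1).mpr (map_zero _)))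
  · intro t
    have h1 := (hv' _).mp (hχ t)
    have h2 : (φ t) v - (χ t) • v = 0 := h1
    exact sub_eq_zero.mp h2
  · intro t ht
    apply hpm
    rw [← hqp, Ideal.mem_comap]
    have h1 := hχ t
    rw [RingHom.mem_ker] at ht
    rwa [ht, map_zero, sub_zero] at h1

/-- Integral version: if moreover the ring is integral over `ℤ`, the character takes values in the
ring of algebraic integers, and there is a maximal ideal of the latter compatible with a given
maximal ideal of the Hecke ring. -/
theorem exists_eigenvector_of_isMaximal {V : Type*} [AddCommGroup V] [Module ℂ V]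
    [FiniteDimensional ℂ V] {T : Type*} [CommRing T] [Algebra.IsIntegral ℤ T]
    (φ : T →+* Module.End ℂ V)
    (hφ : Function.Injective φ) (m : Ideal T) [m.IsMaximal] :
    ∃ (v : V) (χ : T →+* integralClosure ℤ ℂ) (M : Ideal (integralClosure ℤ ℂ)),
      v ≠ 0 ∧ (∀ t, φ t v = (χ t : ℂ) • v) ∧ M.IsMaximal ∧ M.comap χ = m := by
  obtain ⟨v, χ, hv, hφv, hker⟩ := exists_eigenvector_of_isPrime φ hφ m
  let χ' : T →+* integralClosure ℤ ℂ := RingHom.codRestrict χ (integralClosure ℤ ℂ)
    (fun t => (Algebra.IsIntegral.isIntegral (R := ℤ) t).map χ.toIntAlgHom)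
  let _ : Algebra T (integralClosure ℤ ℂ) := χ'.toAlgebra
  have hT : Algebra.IsIntegral T (integralClosure ℤ ℂ) :=
    Algebra.IsIntegral.tower_top (R := ℤ)
  have hk : RingHom.ker (algebraMap T (integralClosure ℤ ℂ)) ≤ m := by
    refine le_trans ?_ hker
    intro t ht
    exact congrArg Subtype.val ht
  obtain ⟨M, hM, hMm⟩ := Ideal.exists_ideal_over_maximal_of_isIntegral m hk
  exact ⟨v, χ', M, hv, hφv, hM, hMm⟩

end Fermat.Agent.Eigenform
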