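import Mathlib
import Fermat.Prelude.Def_FormalHecke_Eigensystem

set_option autoImplicit false

namespace Fermat.Agent.Eigenform

open FormalHecke

variable {R : Type*} [CommRing R]

/-- An eigensystem is multiplicative. -/
theorem IsEigensystem.mul_of_coprime {e a : ℕ → R} (h : IsEigensystem e a) :
    ∀ m n : ℕ, m.Coprime n → a (m * n) = a m * a n := by
  intro m
  induction m using Nat.strong_induction_on with
  | _ m ih =>
    intro n hmn
    rcases Nat.lt_or_ge 1 m with hm | hm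
    · obtain ⟨ℓ, hℓ, k, rfl⟩ : ∃ ℓ : ℕ, ℓ.Prime ∧ ∃ k, m = ℓ * k :=
        ⟨m.minFac, Nat.minFac_prime hm.ne', m.minFac_dvd⟩
      have hk : 0 < k := Nat.pos_of_ne_zero (by rintro rfl; simp at hm)
      have hkm : k < ℓ * k := by nlinarith [hℓ.two_le]
      have hkn : k.Coprime n := Nat.Coprime.coprime_mul_left hmn
      have hℓn : ℓ.Coprime n := Nat.Coprime.coprime_mul_right hmn
      have h1 := h.2 ℓ hℓ (k * n)
      have h2 := h.2 ℓ hℓ k
      have hiff : ℓ ∣ k * n ↔ ℓ ∣ k :=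
        ⟨fun hd => hℓn.dvd_of_dvd_mul_right hd, fun hd => hd.mul_right n⟩
      rw [ih k hkm n hkn] at h1
      rw [mul_assoc]
      by_cases hd : ℓ ∣ k
      · rw [if_pos (hiff.mpr hd)] at h1
        rw [if_pos hd] at h2
        obtain ⟨j, rfl⟩ := hd
        have hj : ℓ * j * n / ℓ = j * n := by
          rw [mul_assoc, Nat.mul_div_cancel_left _ hℓ.pos]
        have hj' : ℓ * j / ℓ = j := Nat.mul_div_cancel_left _ hℓ.pos
        have hjpos : 0 < j := Nat.pos_of_ne_zero (by rintro rfl; simp at hk)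
        have hjlt : j < ℓ * (ℓ * j) := by nlinarith [hℓ.two_le]
        rw [hj, ih j hjlt n (Nat.Coprime.coprime_mul_left hkn)] at h1
        rw [hj'] at h2
        linear_combination h1 - a n * h2
      · rw [if_neg (fun h' => hd (hiff.mp h'))] at h1
        rw [if_neg hd] at h2
        linear_combination h1 - a n * h2
    · interval_cases m
      · rw [Nat.coprime_zero_left] at hmn
        subst hmn
        rw [h.1, mul_one, mul_one]
      · rw [one_mul, h.1, one_mul]

theorem IsEigensystem.prime_pow {e a : ℕ → R} (h : IsEigensystem e a) (ℓ r : ℕ) (hℓ : ℓ.Prime) :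
    a (ℓ ^ (r + 2)) = a ℓ * a (ℓ ^ (r + 1)) - e ℓ * a (ℓ ^ r) := by
  have h1 := h.2 ℓ hℓ (ℓ ^ (r + 1))
  rw [if_pos (dvd_pow_self ℓ r.succ_ne_zero), pow_succ' ℓ r, Nat.mul_div_cancel_left _ hℓ.pos,
    ← pow_succ', ← pow_succ'] at h1
  linear_combination h1

theorem IsEigensystem.isRecursive {e a : ℕ → R} (h : IsEigensystem e a) : IsRecursive e a :=
  ⟨h.1, IsEigensystem.mul_of_coprime h, fun ℓ r hℓ => IsEigensystem.prime_pow h ℓ r hℓ⟩

/-- A sequence satisfying the eigen-equations and vanishing at `1` vanishes at every `n ≥ 1`. -/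
theorem eq_zero_of_eigen {e t c : ℕ → R}
    (h : ∀ ℓ : ℕ, ℓ.Prime → ∀ n : ℕ,
      c (ℓ * n) + e ℓ * (if ℓ ∣ n then c (n / ℓ) else 0) = t ℓ * c n)
    (h1 : c 1 = 0) (n : ℕ) (hn : 0 < n) : c n = 0 := by
  induction n using Nat.strong_induction_on with
  | _ n ih =>
    rcases Nat.lt_or_ge 1 n with hn1 | hn1
    · obtain ⟨ℓ, hℓ, k, rfl⟩ : ∃ ℓ : ℕ, ℓ.Prime ∧ ∃ k, n = ℓ * k :=
        ⟨n.minFac, Nat.minFac_prime hn1.ne', n.minFac_dvd⟩
      have hk : 0 < k := Nat.pos_of_ne_zero (by rintro rfl; simp at hn)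
      have hkm : k < ℓ * k := by nlinarith [hℓ.two_le]
      have h2 := h ℓ hℓ k
      rw [ih k hkm hk, mul_zero] at h2
      by_cases hd : ℓ ∣ k
      · rw [if_pos hd] at h2
        obtain ⟨j, rfl⟩ := hd
        have hjpos : 0 < j := Nat.pos_of_ne_zero (by rintro rfl; simp at hk)
        have hjlt : j < ℓ * (ℓ * j) := by nlinarith [hℓ.two_le]
        rw [Nat.mul_div_cancel_left _ hℓ.pos, ih j hjlt hjpos, mul_zero, add_zero] at h2
        exact h2
      · rw [if_neg hd, mul_zero, add_zero] at h2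
        exact h2
    · obtain rfl : n = 1 := le_antisymm hn1 hn
      exact h1

end Fermat.Agent.Eigenform
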