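import Fermat.Agent.Eigenform.QCoeff
import Fermat.Agent.Eigenform.Eigenvector
import Fermat.Agent.Eigenform.Recursion

set_option autoImplicit false

namespace Fermat.Agent.Eigenform

open CuspForm ModularFormClass

/-- The space of weight-2 cusp forms is finite-dimensional as soon as it has an integral
structure. -/
theorem finiteDimensional_of_hasIntegralStructure (N : ℕ) [NeZero N] (k : ℤ)
    (hint : HasIntegralStructure N k) :
    FiniteDimensional ℂ (CuspForm (CongruenceSubgroup.Gamma0 N) k) := by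
  obtain ⟨s, hs⟩ := CuspForm.intLattice_fg N k
  refine ⟨⟨s, ?_⟩⟩
  rw [eq_top_iff, ← hint, Submodule.span_le]
  rw [← hs]
  exact Submodule.span_subset_span ℤ ℂ _

theorem moduleFinite_heckeAlgebra (N : ℕ) [NeZero N] (S : Set ℕ)
    (hint : HasIntegralStructure N 2) : Module.Finite ℤ (heckeAlgebra N 2 S) :=
  Module.Finite.of_injective (latticeRestrictHom N S).toLinearMap
    (latticeRestrictHom_bijective N S hint).1

variable {N : ℕ} [NeZero N]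

/-- The eigen-equations for the `q`-coefficients of an eigenvector of the full Hecke algebra. -/
theorem qCoeff_eigen {v : CuspForm (CongruenceSubgroup.Gamma0 N) 2}
    (t : ℕ → ℂ)
    (hT : ∀ (ℓ : ℕ) (hℓ : ℓ.Prime) (hℓN : ¬ ℓ ∣ N), heckeTLin 2 hℓ hℓN v = t ℓ • v)
    (hU : ∀ (q : ℕ) (_ : q.Prime) (hqN : q ∣ N), heckeULin 2 hqN v = t q • v) :
    ∀ ℓ : ℕ, ℓ.Prime → ∀ n : ℕ,
      qCoeff v (ℓ * n) + (if ℓ ∣ N then (0 : ℂ) else (ℓ : ℂ)) *
        (if ℓ ∣ n then qCoeff v (n / ℓ) else 0) = t ℓ * qCoeff v n := by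
  intro ℓ hℓ n
  by_cases hℓN : ℓ ∣ N
  · have h := qCoeff_heckeULin hℓN v n
    rw [hU ℓ hℓ hℓN, qCoeff_smul, ModularForm.coeffHeckeU_apply] at h
    rw [if_pos hℓN, zero_mul, add_zero, h, mul_comm]
  · have h := qCoeff_heckeTLin hℓ hℓN v n
    rw [hT ℓ hℓ hℓN, qCoeff_smul, ModularForm.coeffHeckeT_apply] at h
    rw [if_neg hℓN, h, mul_comm ℓ n]
    congr 1
    split_ifs
    · norm_num
    · rw [mul_zero]

/-- The first coefficient of a Hecke eigenvector does not vanish. -/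
theorem qCoeff_one_ne_zero {v : CuspForm (CongruenceSubgroup.Gamma0 N) 2} (hv : v ≠ 0)
    (t : ℕ → ℂ)
    (hT : ∀ (ℓ : ℕ) (hℓ : ℓ.Prime) (hℓN : ¬ ℓ ∣ N), heckeTLin 2 hℓ hℓN v = t ℓ • v)
    (hU : ∀ (q : ℕ) (_ : q.Prime) (hqN : q ∣ N), heckeULin 2 hqN v = t q • v) :
    qCoeff v 1 ≠ 0 := by
  intro h1
  apply hv
  apply eq_zero_of_qCoeff_eq_zero
  intro n
  rcases Nat.eq_zero_or_pos n with rfl | hn
  · exact qCoeff_cuspForm_zero v
  · exact eq_zero_of_eigen (qCoeff_eigen t hT hU) h1 n hn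

/-- A Hecke eigenvector with first coefficient one is a normalised eigenform, with coefficients the
eigenvalues. -/
theorem isNormalizedEigenform_of_eigen {v : CuspForm (CongruenceSubgroup.Gamma0 N) 2}
    (hv : qCoeff v 1 = 1)
    (t : ℕ → ℂ)
    (hT : ∀ (ℓ : ℕ) (hℓ : ℓ.Prime) (hℓN : ¬ ℓ ∣ N), heckeTLin 2 hℓ hℓN v = t ℓ • v)
    (hU : ∀ (q : ℕ) (_ : q.Prime) (hqN : q ∣ N), heckeULin 2 hqN v = t q • v) :
    v.IsNormalizedEigenform ∧ ∀ ℓ : ℕ, ℓ.Prime → qCoeff v ℓ = t ℓ := by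
  have h := qCoeff_eigen t hT hU
  have ht : ∀ ℓ : ℕ, ℓ.Prime → qCoeff v ℓ = t ℓ := by
    intro ℓ hℓ
    have h1 := h ℓ hℓ 1
    rwa [hv, mul_one, mul_one, if_neg (hℓ.one_lt.not_ge ∘ Nat.le_of_dvd one_pos), mul_zero,
      add_zero] at h1
  have heig : FormalHecke.IsEigensystem (fun ℓ => if ℓ ∣ N then (0 : ℂ) else (ℓ : ℂ))
      (fun n => qCoeff v n) :=
    ⟨hv, fun ℓ hℓ n => by simp only [h ℓ hℓ n, ht ℓ hℓ]⟩
  refine ⟨⟨hv, fun m n hmn => IsEigensystem.mul_of_coprime heig m n hmn, ?_, ?_⟩, ht⟩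
  · intro p r hp hpN
    have := IsEigensystem.prime_pow heig p r hp
    simpa only [if_neg hpN] using this
  · intro p r hp hpN
    have := IsEigensystem.prime_pow heig p r hp
    simpa only [if_pos hpN, zero_mul, sub_zero] using this

/-- **Deligne–Serre lifting lemma** for the full weight-2 Hecke algebra of level `Γ₀(N)`:
every maximal ideal `m` of the Hecke algebra comes from a normalised eigenform together with a
maximal ideal of the ring of algebraic integers. -/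
theorem exists_eigenform_of_isMaximal (hint : HasIntegralStructure N 2)
    (m : Ideal (heckeAlgebra N 2 (∅ : Set ℕ))) [m.IsMaximal] :
    ∃ (f : CuspForm (CongruenceSubgroup.Gamma0 N) 2)
      (χ : heckeAlgebra N 2 (∅ : Set ℕ) →+* integralClosure ℤ ℂ)
      (M : Ideal (integralClosure ℤ ℂ)),
      f.IsNormalizedEigenform ∧
      (∀ t : heckeAlgebra N 2 (∅ : Set ℕ),
        (t : Module.End ℂ (CuspForm (CongruenceSubgroup.Gamma0 N) 2)) f = (χ t : ℂ) • f) ∧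
      (∀ (ℓ : ℕ) (hℓ : ℓ.Prime) (hℓN : ¬ ℓ ∣ N),
        (χ (heckeAlgebra.T hℓ hℓN (Set.notMem_empty _)) : ℂ) = qCoeff f ℓ) ∧
      (∀ (q : ℕ) (hq : q.Prime) (hqN : q ∣ N),
        (χ (heckeAlgebra.U hq hqN (Set.notMem_empty _)) : ℂ) = qCoeff f q) ∧
      M.IsMaximal ∧ M.comap χ = m := by
  have := finiteDimensional_of_hasIntegralStructure N 2 hint
  have := moduleFinite_heckeAlgebra N ∅ hint
  have : Algebra.IsIntegral ℤ (heckeAlgebra N 2 (∅ : Set ℕ)) := Algebra.IsIntegral.of_finite _ _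
  obtain ⟨v, χ, M, hv, hχ, hM, hMm⟩ := exists_eigenvector_of_isMaximal
    (V := CuspForm (CongruenceSubgroup.Gamma0 N) 2)
    (heckeAlgebra N 2 (∅ : Set ℕ)).val.toRingHom
    Subtype.val_injective m
  let t : ℕ → ℂ := fun ℓ => if hℓ : ℓ.Prime then
    (if hℓN : ℓ ∣ N then (χ (heckeAlgebra.U hℓ hℓN (Set.notMem_empty _)) : ℂ)
      else (χ (heckeAlgebra.T hℓ hℓN (Set.notMem_empty _)) : ℂ)) else 0
  have hT : ∀ (ℓ : ℕ) (hℓ : ℓ.Prime) (hℓN : ¬ ℓ ∣ N), heckeTLin 2 hℓ hℓN v = t ℓ • v := by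
    intro ℓ hℓ hℓN
    simp only [t, dif_pos hℓ, dif_neg hℓN]
    exact hχ (heckeAlgebra.T hℓ hℓN (Set.notMem_empty _))
  have hU : ∀ (q : ℕ) (_ : q.Prime) (hqN : q ∣ N), heckeULin 2 hqN v = t q • v := by
    intro ℓ hℓ hℓN
    simp only [t, dif_pos hℓ, dif_pos hℓN]
    exact hχ (heckeAlgebra.U hℓ hℓN (Set.notMem_empty _))
  have h1 := qCoeff_one_ne_zero hv t hT hU
  obtain ⟨f, hf⟩ : ∃ f : CuspForm (CongruenceSubgroup.Gamma0 N) 2, f = (qCoeff v 1)⁻¹ • v :=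
    ⟨_, rfl⟩
  have hf1 : qCoeff f 1 = 1 := by
    rw [hf, qCoeff_smul, inv_mul_cancel₀ h1]
  have hTf : ∀ (ℓ : ℕ) (hℓ : ℓ.Prime) (hℓN : ¬ ℓ ∣ N),
      heckeTLin 2 hℓ hℓN f = t ℓ • f := by
    intro ℓ hℓ hℓN
    rw [hf, map_smul, hT ℓ hℓ hℓN, smul_comm]
  have hUf : ∀ (q : ℕ) (_ : q.Prime) (hqN : q ∣ N),
      heckeULin 2 hqN f = t q • f := by
    intro ℓ hℓ hℓN
    rw [hf, map_smul, hU ℓ hℓ hℓN, smul_comm]
  obtain ⟨hfe, hft⟩ := isNormalizedEigenform_of_eigen hf1 t hTf hUf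
  refine ⟨f, χ, M, hfe, ?_, ?_, ?_, hM, hMm⟩
  · intro s
    rw [hf, map_smul, smul_comm]
    congr 1
    exact hχ s
  · intro ℓ hℓ hℓN
    rw [hft ℓ hℓ]
    simp only [t, dif_pos hℓ, dif_neg hℓN]
  · intro ℓ hℓ hℓN
    rw [hft ℓ hℓ]
    simp only [t, dif_pos hℓ, dif_pos hℓN]

end Fermat.Agent.Eigenform
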