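import Mathlib
import Fermat.Prelude.Def_CuspForm_HeckeLocal
import Fermat.Prelude.Thm_ModularFormClass_qCoeff_heckeT
import Fermat.Prelude.Thm_ModularFormClass_qCoeff_heckeU
import Fermat.Prelude.Thm_CongruenceSubgroup_one_mem_strictPeriods_Gamma0

set_option autoImplicit false

namespace Fermat.Agent.Eigenform

open CuspForm ModularFormClass

variable {N : ℕ} {k : ℤ}

/-- The strict period `1` of `Γ₀(N)` (coerced form). -/
theorem one_mem (N : ℕ) : (1 : ℝ) ∈ (Subgroup.map (Matrix.SpecialLinearGroup.mapGL ℝ)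
    (CongruenceSubgroup.Gamma0 N)).strictPeriods :=
  CongruenceSubgroup.one_mem_strictPeriods_Gamma0 N

theorem qCoeff_add (f g : CuspForm (CongruenceSubgroup.Gamma0 N) k) (n : ℕ) :
    qCoeff ⇑(f + g) n = qCoeff ⇑f n + qCoeff ⇑g n := by
  simp only [qCoeff, FunLike.coe_add]
  rw [ModularForm.qExpansion_add one_pos (one_mem N) f g, map_add]

theorem qCoeff_smul (c : ℂ) (f : CuspForm (CongruenceSubgroup.Gamma0 N) k) (n : ℕ) :
    qCoeff ⇑(c • f) n = c * qCoeff ⇑f n := by
  simp only [qCoeff, FunLike.coe_smul]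
  rw [ModularForm.qExpansion_smul one_pos (one_mem N) (c : ℂ) f]
  simp

variable (N k) in
/-- The `n`-th `q`-coefficient as a linear functional on the space of cusp forms. -/
noncomputable def qCoeffLin (n : ℕ) : CuspForm (CongruenceSubgroup.Gamma0 N) k →ₗ[ℂ] ℂ where
  toFun f := qCoeff f n
  map_add' f g := qCoeff_add f g n
  map_smul' c f := qCoeff_smul c f n

@[simp] theorem qCoeffLin_apply (n : ℕ) (f : CuspForm (CongruenceSubgroup.Gamma0 N) k) :
    qCoeffLin N k n f = qCoeff f n := rfl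

theorem qCoeff_cuspForm_zero (f : CuspForm (CongruenceSubgroup.Gamma0 N) k) :
    qCoeff ⇑f 0 = 0 :=
  CuspFormClass.qExpansion_coeff_zero f one_pos (one_mem N)

theorem qCoeff_sub (f g : CuspForm (CongruenceSubgroup.Gamma0 N) k) (n : ℕ) :
    qCoeff ⇑(f - g) n = qCoeff ⇑f n - qCoeff ⇑g n := by
  rw [← qCoeffLin_apply, map_sub]; rfl

theorem qCoeff_zsmul (c : ℤ) (f : CuspForm (CongruenceSubgroup.Gamma0 N) k) (n : ℕ) :
    qCoeff ⇑(c • f) n = c * qCoeff ⇑f n := by
  rw [← qCoeffLin_apply, map_zsmul, zsmul_eq_mul]; rfl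

/-- The `q`-expansion principle in its simplest form: a cusp form is determined by its
`q`-coefficients. -/
theorem eq_zero_of_qCoeff_eq_zero (f : CuspForm (CongruenceSubgroup.Gamma0 N) k)
    (h : ∀ n, qCoeff ⇑f n = 0) : f = 0 := by
  have h0 : UpperHalfPlane.qExpansion 1 ⇑f = 0 := PowerSeries.ext fun n => by
    simpa [qCoeff] using h n
  have : Fact (IsCusp OnePoint.infty (Subgroup.map (Matrix.SpecialLinearGroup.mapGL ℝ)
    (CongruenceSubgroup.Gamma0 N))) := ⟨Subgroup.isCusp_of_mem_strictPeriods one_pos (one_mem N)⟩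
  have h1 := (UpperHalfPlane.qExpansion_eq_zero_iff one_pos
    (SlashInvariantFormClass.periodic_comp_ofComplex f (one_mem N)) (ModularFormClass.holo f)
    (ModularFormClass.bdd_at_infty f)).mp h0
  exact DFunLike.coe_injective h1

theorem qCoeff_ext {f g : CuspForm (CongruenceSubgroup.Gamma0 N) k}
    (h : ∀ n, qCoeff ⇑f n = qCoeff ⇑g n) : f = g := by
  rw [← sub_eq_zero]
  exact eq_zero_of_qCoeff_eq_zero _ fun n => by rw [qCoeff_sub, h, sub_self]

theorem qCoeff_heckeTLin {p : ℕ} (hp : p.Prime) (hpN : ¬ p ∣ N)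
    (f : CuspForm (CongruenceSubgroup.Gamma0 N) k) (n : ℕ) :
    qCoeff ⇑(heckeTLin k hp hpN f) n = ModularForm.coeffHeckeT k p (qCoeff ⇑f) n := by
  rw [CuspForm.coe_heckeTLin_apply]
  exact ModularFormClass.qCoeff_heckeT f (one_mem N) hp.ne_zero n

theorem qCoeff_heckeULin [NeZero N] {p : ℕ} (hpN : p ∣ N)
    (f : CuspForm (CongruenceSubgroup.Gamma0 N) k) (n : ℕ) :
    qCoeff ⇑(heckeULin k hpN f) n = ModularForm.coeffHeckeU p (qCoeff ⇑f) n := by
  rw [CuspForm.coe_heckeULin_apply]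
  refine ModularFormClass.qCoeff_heckeU f (one_mem N) ?_ n
  rintro rfl
  exact NeZero.ne N (Nat.eq_zero_of_zero_dvd hpN)

end Fermat.Agent.Eigenform
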